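import Fermat.Agent.Polya.Counts
import Mathlib.Algebra.BigOperators.Field
import Mathlib.Algebra.Order.Chebyshev
import Mathlib.Data.Nat.Choose.Central
import Mathlib.Data.Real.Basic
import Mathlib.Tactic.FieldSimp
import Mathlib.Tactic.Positivity

/-!
# The bound for the probability of standing at the origin
-/

set_option autoImplicit false

noncomputable section

open Finset

namespace FA.Polya

/-- The probability of standing at the origin after `n` steps. -/
def atOrigin (d n : ℕ) : ℝ := walks d n 0 / (2 * d : ℝ) ^ n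

theorem atOrigin_nonneg (d n : ℕ) : 0 ≤ atOrigin d n := by rw [atOrigin]; positivity

theorem centralBinom_sq_le : ∀ m : ℕ, m.centralBinom ^ 2 * (2 * m + 1) ≤ 16 ^ m
  | 0 => by simp
  | m + 1 => by
      refine Nat.le_of_mul_le_mul_left ?_ (show 0 < (m + 1) ^ 2 by positivity)
      calc (m + 1) ^ 2 * ((m + 1).centralBinom ^ 2 * (2 * (m + 1) + 1))
          = ((m + 1) * (m + 1).centralBinom) ^ 2 * (2 * m + 3) := by ring
        _ = (4 * (2 * m + 1) * (2 * m + 3)) * (m.centralBinom ^ 2 * (2 * m + 1)) := by
            rw [Nat.succ_mul_centralBinom_succ]; ring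
        _ ≤ (16 * (m + 1) ^ 2) * 16 ^ m :=
            Nat.mul_le_mul (by nlinarith) (centralBinom_sq_le m)
        _ = (m + 1) ^ 2 * 16 ^ (m + 1) := by ring

theorem le_centralBinom_sq : ∀ m : ℕ, 1 ≤ m → 16 ^ m ≤ 4 * m * m.centralBinom ^ 2
  | 0, h => by omega
  | 1, _ => by decide
  | m + 2, _ => by
      refine Nat.le_of_mul_le_mul_left ?_ (show 0 < m + 2 by positivity)
      calc (m + 2) * 16 ^ (m + 2) = 16 * (m + 2) * 16 ^ (m + 1) := by ring
        _ ≤ 16 * (m + 2) * (4 * (m + 1) * (m + 1).centralBinom ^ 2) :=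
            Nat.mul_le_mul_left _ (le_centralBinom_sq (m + 1) (by omega))
        _ ≤ 16 * (2 * (m + 1) + 1) ^ 2 * (m + 1).centralBinom ^ 2 := by
            rw [← mul_assoc]
            exact Nat.mul_le_mul_right _ (by nlinarith)
        _ = 4 * ((m + 1 + 1) * (m + 1 + 1).centralBinom) ^ 2 := by
            rw [Nat.succ_mul_centralBinom_succ]; ring
        _ = (m + 2) * (4 * (m + 2) * (m + 2).centralBinom ^ 2) := by ring

theorem atOrigin_line_le (n : ℕ) : atOrigin 1 n ^ 2 * ((n : ℝ) + 1) ≤ 1 := by
  rcases Nat.even_or_odd' n with ⟨m, rfl | rfl⟩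
  · rw [atOrigin, closedWalks_line, div_pow, div_mul_eq_mul_div, div_le_one (by positivity),
      Nat.cast_one, mul_one, ← pow_mul, show 2 * m * 2 = 4 * m by ring, pow_mul]
    have := centralBinom_sq_le m
    rw [Nat.centralBinom] at this
    norm_num
    exact_mod_cast this
  · rw [atOrigin, closedWalks_line_odd]
    simp

theorem choose_mul_ascFactorial {n k : ℕ} (d : ℕ) (hk : k ≤ n) :
    n.choose k * (n + 1).ascFactorial (d + 1) =
      (n + d + 1).choose (k + d) * (k + 1).ascFactorial d * (n - k + 1) := by
  obtain ⟨j, rfl⟩ := Nat.exists_eq_add_of_le hk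
  rw [show k + j - k = j by omega]
  refine Nat.eq_of_mul_eq_mul_right (show 0 < k.factorial * j.factorial by positivity) ?_
  have h1 := Nat.choose_mul_factorial_mul_factorial (n := k + j) (k := k) (by omega)
  have h2 := Nat.choose_mul_factorial_mul_factorial (n := k + j + d + 1) (k := k + d) (by omega)
  rw [show k + j - k = j by omega] at h1
  rw [show k + j + d + 1 - (k + d) = j + 1 by omega, Nat.factorial_succ,
    ← Nat.factorial_mul_ascFactorial k d, show k + j + d + 1 = k + j + (d + 1) by ring] at h2
  rw [show k + j + d + 1 = k + j + (d + 1) by ring]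
  have h3 := Nat.factorial_mul_ascFactorial (k + j) (d + 1)
  linear_combination (k + j + 1).ascFactorial (d + 1) * h1 + h3 - h2

/-- `P (S_n = 0) ^ 2 (n + 1) ^ d` is bounded. -/
theorem exists_atOrigin_sq_le : ∀ d : ℕ, 1 ≤ d →
    ∃ C : ℝ, ∀ n : ℕ, atOrigin d n ^ 2 * ((n : ℝ) + 1) ^ d ≤ C := by
  intro d hd
  induction d, hd using Nat.le_induction with
  | base => exact ⟨1, fun n => by simpa using atOrigin_line_le n⟩
  | succ d hd ih =>
    obtain ⟨C, hC⟩ := ih
    have hC0 : 0 ≤ C := le_trans (by positivity) (hC 0)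
    have hd0 : (0 : ℝ) < d := by exact_mod_cast hd
    set p : ℝ := d / (d + 1)
    set q : ℝ := 1 / (d + 1)
    have hp : 0 < p := by positivity
    have hq : 0 < q := by positivity
    have hpq : p + q = 1 := by simp only [p, q]; field_simp
    refine ⟨C * d ^ d / (p ^ d * q), fun n => ?_⟩
    set w : ℕ → ℝ := fun k => n.choose k * p ^ k * q ^ (n - k) with hw
    have hsum : ∑ k ∈ range (n + 1), w k = 1 := by
      have h := add_pow p q n
      rw [hpq, one_pow] at h
      rw [h]
      exact sum_congr rfl fun k _ => by simp only [hw]; ring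
    have hu : atOrigin (d + 1) n =
        ∑ k ∈ range (n + 1), w k * (atOrigin d k * atOrigin 1 (n - k)) := by
      rw [atOrigin, closedWalks_succ_dim, Nat.cast_sum, sum_div]
      refine sum_congr rfl fun k hk => ?_
      obtain ⟨j, rfl⟩ := Nat.exists_eq_add_of_le (Nat.lt_succ_iff.1 (mem_range.1 hk))
      simp only [hw, p, q, atOrigin, show k + j - k = j by omega, div_pow, one_pow, mul_pow,
        pow_add, Nat.cast_mul, Nat.cast_add, Nat.cast_one]
      field_simp
    have hcs : atOrigin (d + 1) n ^ 2 ≤
        ∑ k ∈ range (n + 1), w k * (atOrigin d k * atOrigin 1 (n - k)) ^ 2 := by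
      rw [hu]
      refine (sum_sq_le_sum_mul_sum_of_sq_eq_mul _ (f := w)
        (g := fun k => w k * (atOrigin d k * atOrigin 1 (n - k)) ^ 2) (fun k _ => ?_)
        (fun k _ => ?_)
        (fun k _ => by ring)).trans_eq (by rw [hsum, one_mul])
      · positivity
      · positivity
    refine (mul_le_mul_of_nonneg_right hcs (by positivity)).trans ?_
    set g : ℕ → ℝ := fun i => (n + d + 1).choose i * p ^ i * q ^ (n + d + 1 - i) with hg
    have hgle : ∑ k ∈ range (n + 1), g (k + d) ≤ 1 := by
      have h1 : ∑ i ∈ range (d + (n + 2)), g i = 1 := by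
        have h := add_pow p q (n + d + 1)
        rw [hpq, one_pow] at h
        rw [h, show d + (n + 2) = n + d + 1 + 1 by ring]
        exact sum_congr rfl fun k _ => by simp only [hg]; ring
      rw [sum_range_add, sum_range_succ _ (n + 1)] at h1
      simp only [add_comm _ d]
      have h2 : 0 ≤ ∑ i ∈ range d, g i := sum_nonneg fun i _ => by positivity
      have h3 : 0 ≤ g (d + (n + 1)) := by positivity
      linarith
    calc (∑ k ∈ range (n + 1), w k * (atOrigin d k * atOrigin 1 (n - k)) ^ 2) *
          ((n : ℝ) + 1) ^ (d + 1)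
        ≤ ∑ k ∈ range (n + 1), C * d ^ d / (p ^ d * q) * g (k + d) := by
          rw [sum_mul]
          refine sum_le_sum fun k hk => ?_
          obtain ⟨j, rfl⟩ := Nat.exists_eq_add_of_le (Nat.lt_succ_iff.1 (mem_range.1 hk))
          simp only [hw, hg, show k + j - k = j by omega,
            show k + j + d + 1 - (k + d) = j + 1 by omega]
          have hN : (k + j).choose k * (k + j + 1) ^ (d + 1) ≤
              (k + j + d + 1).choose (k + d) * (d * (k + 1)) ^ d * (j + 1) := by
            refine (Nat.mul_le_mul_left _ (Nat.pow_succ_le_ascFactorial _ _)).trans ?_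
            rw [choose_mul_ascFactorial d (by omega), show k + j - k = j by omega]
            refine Nat.mul_le_mul_right _ (Nat.mul_le_mul_left _ ?_)
            exact (Nat.ascFactorial_le_pow_add _ _).trans
              (Nat.pow_le_pow_left (by nlinarith) _)
          have hN' : ((k + j).choose k : ℝ) * ((k : ℝ) + j + 1) ^ (d + 1) ≤
              (k + j + d + 1).choose (k + d) * ((d : ℝ) * (k + 1)) ^ d * ((j : ℝ) + 1) := by
            exact_mod_cast hN
          have hl := atOrigin_line_le j
          calc ((k + j).choose k : ℝ) * p ^ k * q ^ j * (atOrigin d k * atOrigin 1 j) ^ 2 *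
                ((k + j : ℕ) + 1 : ℝ) ^ (d + 1)
              = p ^ k * q ^ j * (atOrigin d k * atOrigin 1 j) ^ 2 *
                  (((k + j).choose k : ℝ) * ((k : ℝ) + j + 1) ^ (d + 1)) := by push_cast; ring
            _ ≤ p ^ k * q ^ j * (atOrigin d k * atOrigin 1 j) ^ 2 *
                  ((k + j + d + 1).choose (k + d) * ((d : ℝ) * (k + 1)) ^ d * ((j : ℝ) + 1)) :=
                mul_le_mul_of_nonneg_left hN' (by positivity)
            _ = (k + j + d + 1).choose (k + d) * p ^ k * q ^ j * (d : ℝ) ^ d *
                  ((atOrigin d k ^ 2 * ((k : ℝ) + 1) ^ d) *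
                    (atOrigin 1 j ^ 2 * ((j : ℝ) + 1))) := by rw [mul_pow (d : ℝ)]; ring
            _ ≤ (k + j + d + 1).choose (k + d) * p ^ k * q ^ j * (d : ℝ) ^ d * (C * 1) :=
                mul_le_mul_of_nonneg_left (mul_le_mul (hC k) hl (by positivity) hC0)
                  (by positivity)
            _ = _ := by
                rw [pow_add p, pow_succ q]
                field_simp
      _ ≤ C * d ^ d / (p ^ d * q) := by
          rw [← mul_sum]
          exact mul_le_of_le_one_right (by positivity) hgle

end FA.Polya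

end
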