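import Fermat.Agent.Polya.Walk
import Mathlib.Data.Nat.Choose.Sum
import Mathlib.Tactic.FinCases
import Mathlib.Tactic.LinearCombination

/-!
# The numbers of closed walks

One more dimension is a binomial mixture; the plane is the product of two lines.
-/

set_option autoImplicit false

open Finset

namespace FA.Polya

/-- The number of walks on the line ending at `y`. -/
def line (n : ℕ) (y : ℤ) : ℕ := walks 1 n fun _ => y

theorem line_zero (y : ℤ) : line 0 y = if y = 0 then 1 else 0 := by
  simp [line, walks_zero, funext_iff]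

theorem line_succ (n : ℕ) (y : ℤ) : line (n + 1) y = line n (y - 1) + line n (y + 1) := by
  rw [line, walks_succ, Fintype.sum_prod_type, Fin.sum_univ_one, Fintype.sum_bool]
  congr 1 <;>
  · rw [line]
    congr 1
    funext i
    fin_cases i
    simp [step]

theorem line_eq_zero : ∀ (n : ℕ) (y : ℤ), ((n : ℤ) + y) % 2 = 1 ∨ y < -(n : ℤ) → line n y = 0
  | 0, y, h => by rw [line_zero, if_neg (by omega)]
  | n + 1, y, h => by
      rw [line_succ, line_eq_zero n (y - 1) (by omega), line_eq_zero n (y + 1) (by omega)]

theorem line_eq_choose : ∀ n k : ℕ, line n (2 * (k : ℤ) - n) = n.choose k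
  | 0, 0 => by simp [line_zero]
  | 0, k + 1 => by rw [line_zero, if_neg (by omega), Nat.choose_zero_succ]
  | n + 1, 0 => by
      rw [line_succ, line_eq_zero n _ (Or.inr (by omega)), zero_add, Nat.choose_zero_right,
        show 2 * ((0 : ℕ) : ℤ) - ((n + 1 : ℕ) : ℤ) + 1 = 2 * ((0 : ℕ) : ℤ) - n by omega,
        line_eq_choose n 0, Nat.choose_zero_right]
  | n + 1, k + 1 => by
      rw [line_succ, Nat.choose_succ_succ',
        show 2 * ((k + 1 : ℕ) : ℤ) - ((n + 1 : ℕ) : ℤ) - 1 = 2 * (k : ℤ) - n by omega,
        show 2 * ((k + 1 : ℕ) : ℤ) - ((n + 1 : ℕ) : ℤ) + 1 = 2 * ((k + 1 : ℕ) : ℤ) - n by omega,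
        line_eq_choose n k, line_eq_choose n (k + 1)]

theorem walks_one (n : ℕ) : walks 1 n 0 = line n 0 := rfl

/-- One more dimension. -/
theorem walks_succ_dim {d : ℕ} (n : ℕ) : ∀ x : Fin (d + 1) → ℤ, walks (d + 1) n x =
    ∑ k ∈ range (n + 1), n.choose k * (walks d k (Fin.init x) * line (n - k) (x (Fin.last d))) := by
  induction n with
  | zero =>
    intro x
    rw [sum_range_one, Nat.choose_zero_right, one_mul, walks_zero, walks_zero, line_zero]
    by_cases h : x (Fin.last d) = 0
    · by_cases h' : Fin.init x = 0
      · rw [if_pos h, if_pos h', if_pos]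
        funext i
        exact Fin.lastCases h (fun j => congrFun h' j) i
      · rw [if_neg h', zero_mul, if_neg]
        exact fun e => h' (by rw [e]; rfl)
    · rw [if_neg h, mul_zero, if_neg]
      exact fun e => h (by rw [e]; rfl)
  | succ n ih =>
    intro x
    have hinit : ∀ (i : Fin d) (b : Bool),
        Fin.init (x - step (i.castSucc, b)) = Fin.init x - step (i, b) := by
      intro i b
      funext j
      simp [Fin.init, step, Pi.single_apply]
    have hlast : ∀ b : Bool, Fin.init (x - step (Fin.last d, b)) = Fin.init x := by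
      intro b
      funext j
      simp [Fin.init, step, (Fin.castSucc_lt_last j).ne]
    have hl : ∀ (i : Fin d) (b : Bool),
        (x - step (i.castSucc, b) : Fin (d + 1) → ℤ) (Fin.last d) = x (Fin.last d) := fun i b => by
      simp [step, (Fin.castSucc_lt_last i).ne']
    rw [walks_succ, Fintype.sum_prod_type, Fin.sum_univ_castSucc]
    simp only [ih, hinit, hlast, hl]
    rw [show (∑ i : Fin d, ∑ b : Bool, ∑ k ∈ range (n + 1),
          n.choose k * (walks d k (Fin.init x - step (i, b)) * line (n - k) (x (Fin.last d)))) =
        ∑ k ∈ range (n + 1), n.choose k * (walks d (k + 1) (Fin.init x) *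
          line (n - k) (x (Fin.last d))) from ?_,
      show (∑ b : Bool, ∑ k ∈ range (n + 1), n.choose k *
          (walks d k (Fin.init x) * line (n - k)
            ((x - step (Fin.last d, b) : Fin (d + 1) → ℤ) (Fin.last d)))) =
        ∑ k ∈ range (n + 1), n.choose k * (walks d k (Fin.init x) *
          line (n + 1 - k) (x (Fin.last d))) from ?_]
    · have h := sum_choose_succ_mul (R := ℕ)
        (fun i j => walks d i (Fin.init x) * line j (x (Fin.last d))) n
      simp only [Nat.cast_id] at h
      rw [h, add_comm]
    · rw [sum_comm]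
      refine sum_congr rfl fun k hk => ?_
      rw [show n + 1 - k = n - k + 1 by have := mem_range.1 hk; omega, line_succ,
        Fintype.sum_bool]
      simp [step]
      ring
    · rw [← Fintype.sum_prod_type
        (f := fun e : Fin d × Bool => ∑ k ∈ range (n + 1),
          n.choose k * (walks d k (Fin.init x - step e) * line (n - k) (x (Fin.last d)))), sum_comm]
      refine sum_congr rfl fun k _ => ?_
      rw [walks_succ, sum_mul, mul_sum]

/-- Closed walks in one more dimension. -/
theorem closedWalks_succ_dim (d n : ℕ) : walks (d + 1) n 0 =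
    ∑ k ∈ range (n + 1), n.choose k * (walks d k 0 * walks 1 (n - k) 0) := by
  rw [walks_succ_dim]
  rfl

/-- The plane, rotated. -/
theorem walks_two (n : ℕ) : ∀ x : Fin 2 → ℤ,
    walks 2 n x = line n (x 0 + x 1) * line n (x 0 - x 1) := by
  induction n with
  | zero =>
    intro x
    rw [walks_zero, line_zero, line_zero]
    by_cases h : x = 0
    · simp [h]
    · rw [if_neg h]
      by_cases h1 : x 0 + x 1 = 0
      · rw [if_neg (c := x 0 - x 1 = 0), mul_zero]
        intro h2
        apply h
        funext i
        fin_cases i <;> simp <;> omega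
      · rw [if_neg h1, zero_mul]
  | succ n ih =>
    intro x
    rw [walks_succ, Fintype.sum_prod_type, Fin.sum_univ_two, Fintype.sum_bool, Fintype.sum_bool,
      line_succ, line_succ, ih, ih, ih, ih]
    simp [step]
    ring_nf

theorem closedWalks_line (m : ℕ) : walks 1 (2 * m) 0 = (2 * m).choose m := by
  rw [walks_one, ← line_eq_choose]
  push_cast
  rw [sub_self]

theorem closedWalks_line_odd (m : ℕ) : walks 1 (2 * m + 1) 0 = 0 := by
  rw [walks_one]
  exact line_eq_zero _ _ (Or.inl (by omega))

theorem closedWalks_plane (m : ℕ) : walks 2 (2 * m) 0 = (2 * m).choose m ^ 2 := by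
  rw [walks_two, ← closedWalks_line, walks_one]
  simp [sq]

end FA.Polya
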