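import Fermat.Agent.Polya.Bounds
import Mathlib.Analysis.PSeries
import Mathlib.Topology.Order.MonotoneConvergence

/-!
# Pólya's theorem
-/

set_option autoImplicit false

noncomputable section

open Finset Filter
open scoped Topology

namespace FA.Polya

/-- The probability of a first return after exactly `n` steps. -/
def firstAt (d n : ℕ) : ℝ := firstReturns d n / (2 * d : ℝ) ^ n

/-- The probability of a return within `N` steps. -/
def returnWithin (d N : ℕ) : ℝ := returned d N / (2 * d : ℝ) ^ N

theorem pos_self {d n : ℕ} (w : Fin n → Fin d × Bool) : pos w n = ∑ i, step (w i) :=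
  sum_congr rfl fun i _ => if_pos i.isLt

variable {d : ℕ}

theorem returnWithin_succ (hd : 0 < d) (N : ℕ) :
    returnWithin d (N + 1) = returnWithin d N + firstAt d (N + 1) := by
  have : (d : ℝ) ≠ 0 := by positivity
  rw [returnWithin, returnWithin, firstAt, returned_succ, pow_succ]
  push_cast
  field_simp

theorem returnWithin_eq_sum (hd : 0 < d) :
    ∀ N, returnWithin d N = ∑ j ∈ range N, firstAt d (j + 1)
  | 0 => by simp [returnWithin, returned_zero]
  | N + 1 => by rw [returnWithin_succ hd, returnWithin_eq_sum hd N, sum_range_succ]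

theorem firstAt_nonneg (n : ℕ) : 0 ≤ firstAt d n := by rw [firstAt]; positivity

theorem monotone_returnWithin (hd : 0 < d) : Monotone (returnWithin d) := by
  refine monotone_nat_of_le_succ fun N => ?_
  rw [returnWithin_succ hd]
  linarith [firstAt_nonneg (d := d) (N + 1)]

theorem returnWithin_le_one (N : ℕ) : returnWithin d N ≤ 1 := by
  refine div_le_one_of_le₀ ?_ (by positivity)
  exact_mod_cast returned_le N

theorem returnWithin_nonneg (N : ℕ) : 0 ≤ returnWithin d N := by rw [returnWithin]; positivity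

theorem atOrigin_zero : atOrigin d 0 = 1 := by simp [atOrigin, walks_zero]

/-- The renewal equation for the probabilities. -/
theorem atOrigin_succ (hd : 0 < d) (n : ℕ) :
    atOrigin d (n + 1) = ∑ k ∈ range (n + 1), atOrigin d k * firstAt d (n - k + 1) := by
  have : (d : ℝ) ≠ 0 := by positivity
  rw [atOrigin, walks_succ_zero, Nat.cast_sum, Finset.sum_div]
  refine sum_congr rfl fun k hk => ?_
  obtain ⟨j, rfl⟩ := Nat.exists_eq_add_of_le (Nat.lt_succ_iff.1 (mem_range.1 hk))
  rw [atOrigin, firstAt, show k + j - k = j by omega, show k + j + 1 = k + (j + 1) by ring,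
    pow_add]
  push_cast
  field_simp

theorem sum_atOrigin_succ (hd : 0 < d) : ∀ N, ∑ n ∈ range N, atOrigin d (n + 1) =
    ∑ k ∈ range N, atOrigin d k * returnWithin d (N - k)
  | 0 => by simp
  | N + 1 => by
      rw [sum_range_succ, sum_atOrigin_succ hd N, atOrigin_succ hd, sum_range_succ _ N,
        sum_range_succ _ N, ← add_assoc, ← sum_add_distrib, Nat.sub_self,
        show N + 1 - N = 1 by omega]
      congr 1
      · refine sum_congr rfl fun k hk => ?_
        rw [show N + 1 - k = N - k + 1 by have := mem_range.1 hk; omega, returnWithin_succ hd]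
        ring
      · rw [returnWithin_eq_sum hd, sum_range_one]

theorem tendsto_returnWithin_one (hd : 0 < d) (h : ¬Summable (atOrigin d)) :
    Tendsto (returnWithin d) atTop (𝓝 1) := by
  have hb : BddAbove (Set.range (returnWithin d)) :=
    ⟨1, by rintro x ⟨N, rfl⟩; exact returnWithin_le_one N⟩
  have hlim := tendsto_atTop_ciSup (monotone_returnWithin hd) hb
  set c := ⨆ N, returnWithin d N
  suffices hc : c = 1 by rwa [hc] at hlim
  refine le_antisymm (ciSup_le returnWithin_le_one) (le_of_not_gt fun hlt => h ?_)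
  have hc0 : 0 ≤ c := le_trans (returnWithin_nonneg 0) (le_ciSup hb 0)
  refine summable_of_sum_range_le (atOrigin_nonneg d) (c := 1 / (1 - c)) fun N => ?_
  rw [le_div_iff₀ (by linarith)]
  have h1 : ∑ n ∈ range N, atOrigin d (n + 1) ≤ (∑ k ∈ range N, atOrigin d k) * c := by
    rw [sum_atOrigin_succ hd, sum_mul]
    exact sum_le_sum fun k _ => mul_le_mul_of_nonneg_left (le_ciSup hb _) (atOrigin_nonneg d k)
  have h2 := sum_range_succ' (atOrigin d) N
  have h3 := sum_range_succ (atOrigin d) N
  have := atOrigin_nonneg d N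
  rw [atOrigin_zero] at h2
  nlinarith

theorem exists_returnWithin_le (hd : 0 < d) (h : Summable (atOrigin d)) :
    ∃ c < 1, ∀ N, returnWithin d N ≤ c := by
  set S := ∑' n, atOrigin d n
  have hS : 1 ≤ S := by
    have := h.le_tsum 0 fun n _ => atOrigin_nonneg d n
    rwa [atOrigin_zero] at this
  refine ⟨(S - 1) / S, by rw [div_lt_one (by linarith)]; linarith, fun M => ?_⟩
  rw [le_div_iff₀ (by linarith), mul_comm]
  refine le_of_tendsto (h.hasSum.tendsto_sum_nat.mul_const (returnWithin d M)) ?_
  refine eventually_atTop.2 ⟨M, fun N hN => ?_⟩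
  have h1 : ∑ n ∈ range (2 * N), atOrigin d (n + 1) ≤ S - 1 := by
    have h2 := sum_range_succ' (atOrigin d) (2 * N)
    have h3 := h.sum_le_tsum (range (2 * N + 1)) fun n _ => atOrigin_nonneg d n
    rw [atOrigin_zero] at h2
    linarith
  refine le_trans ?_ h1
  rw [sum_atOrigin_succ hd, sum_mul]
  refine le_trans (sum_le_sum fun k hk => ?_) (sum_le_sum_of_subset_of_nonneg
    (range_subset_range.2 (by omega)) fun k _ _ =>
      mul_nonneg (atOrigin_nonneg d k) (returnWithin_nonneg _))
  exact mul_le_mul_of_nonneg_left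
    (monotone_returnWithin hd (by have := mem_range.1 hk; omega)) (atOrigin_nonneg d k)

theorem one_div_le_atOrigin (hd : d = 1 ∨ d = 2) (m : ℕ) :
    1 / (4 * ((m : ℝ) + 1)) ≤ atOrigin d (2 * (m + 1)) := by
  have h := le_centralBinom_sq (m + 1) (by omega)
  rw [Nat.centralBinom] at h
  have h' : (16 : ℝ) ^ (m + 1) ≤ 4 * ((m : ℝ) + 1) * ((2 * (m + 1)).choose (m + 1) : ℝ) ^ 2 := by
    exact_mod_cast h
  have h2 : 1 / (4 * ((m : ℝ) + 1)) ≤ atOrigin 1 (2 * (m + 1)) ^ 2 := by
    rw [atOrigin, closedWalks_line, div_pow, ← pow_mul, show 2 * (m + 1) * 2 = 4 * (m + 1) by ring,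
      pow_mul, div_le_div_iff₀ (by positivity) (by positivity)]
    norm_num
    linarith
  rcases hd with rfl | rfl
  · refine h2.trans (pow_le_of_le_one (atOrigin_nonneg _ _) ?_ two_ne_zero)
    have h3 := atOrigin_line_le (2 * (m + 1))
    nlinarith [atOrigin_nonneg 1 (2 * (m + 1)),
      sq_nonneg (atOrigin 1 (2 * (m + 1))),
      mul_nonneg (sq_nonneg (atOrigin 1 (2 * (m + 1)))) (Nat.cast_nonneg (α := ℝ) (2 * (m + 1)))]
  · refine h2.trans_eq ?_
    rw [atOrigin, atOrigin, closedWalks_line, closedWalks_plane, div_pow, Nat.cast_pow]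
    congr 1
    rw [← pow_mul, mul_comm _ 2, pow_mul]
    norm_num

theorem not_summable_atOrigin (hd : d = 1 ∨ d = 2) : ¬Summable (atOrigin d) := by
  intro h
  have h2 : Summable fun m : ℕ => atOrigin d (2 * (m + 1)) :=
    h.comp_injective fun a b (hab : 2 * (a + 1) = 2 * (b + 1)) => by omega
  have h3 : Summable fun m : ℕ => 1 / (4 * ((m : ℝ) + 1)) :=
    Summable.of_nonneg_of_le (fun m => by positivity) (one_div_le_atOrigin hd) h2
  refine Real.not_summable_one_div_natCast ((summable_nat_add_iff 1).1 ?_)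
  refine (h3.mul_left 4).congr fun m => ?_
  push_cast
  field_simp

theorem exists_atOrigin_le (hd : 0 < d) :
    ∃ C : ℝ, ∀ n : ℕ, atOrigin d n ≤ C / ((n : ℝ) + 1) ^ ((d : ℝ) / 2) := by
  obtain ⟨C, hC⟩ := exists_atOrigin_sq_le d hd
  refine ⟨Real.sqrt C, fun n => ?_⟩
  rw [le_div_iff₀ (by positivity), div_eq_mul_one_div, Real.rpow_mul (by positivity),
    Real.rpow_natCast, ← Real.sqrt_eq_rpow, ← Real.sqrt_sq (atOrigin_nonneg d n),
    ← Real.sqrt_mul (sq_nonneg _)]
  exact Real.sqrt_le_sqrt (hC n)

theorem summable_atOrigin (hd : 3 ≤ d) : Summable (atOrigin d) := by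
  obtain ⟨C, hC⟩ := exists_atOrigin_le (d := d) (by omega)
  have hC0 : 0 ≤ C := by
    have := hC 0
    rw [atOrigin_zero] at this
    norm_num at this
    linarith
  refine Summable.of_nonneg_of_le (atOrigin_nonneg d) (fun n => (hC n).trans ?_)
    (((summable_nat_add_iff 1).2 (Real.summable_one_div_nat_rpow.2
      (show (1 : ℝ) < 3 / 2 by norm_num))).mul_left C)
  push_cast
  rw [mul_one_div]
  refine div_le_div_of_nonneg_left hC0 (by positivity)
    (Real.rpow_le_rpow_of_exponent_le (by simp) ?_)
  have : (3 : ℝ) ≤ d := by exact_mod_cast hd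
  linarith

theorem summable_atOrigin_iff (hd : 0 < d) : Summable (atOrigin d) ↔ 3 ≤ d :=
  ⟨fun h => by_contra fun h' => not_summable_atOrigin (by omega) h, summable_atOrigin⟩

end FA.Polya

end
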