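import Mathlib.Algebra.BigOperators.Fin
import Mathlib.Algebra.Order.BigOperators.Group.Finset
import Mathlib.Data.Fin.Tuple.Basic
import Mathlib.Data.Fintype.BigOperators
import Mathlib.Data.Fintype.Pi
import Mathlib.Order.Interval.Finset.Nat
import Mathlib.Tactic.Linarith
import Mathlib.Tactic.Ring

/-!
# Walks on the lattice

The walks of length `n` on `ℤ ^ d`, counted by their end and by their visits to the origin.
-/

set_option autoImplicit false

open Finset

namespace FA.Polya

/-- The steps `± e_i`. -/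
def step {d : ℕ} (e : Fin d × Bool) : Fin d → ℤ := Pi.single e.1 (if e.2 then 1 else -1)

/-- The position after `k` steps. -/
def pos {d n : ℕ} (w : Fin n → Fin d × Bool) (k : ℕ) : Fin d → ℤ :=
  ∑ i : Fin n, if (i : ℕ) < k then step (w i) else 0

variable (d : ℕ)

/-- The number of walks ending at `x`. -/
def walks (n : ℕ) (x : Fin d → ℤ) : ℕ :=
  #(univ.filter fun w : Fin n → Fin d × Bool => pos w n = x)

/-- The number of walks ending at `x` without returning to the origin. -/
def avoids (n : ℕ) (x : Fin d → ℤ) : ℕ :=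
  #(univ.filter fun w : Fin n → Fin d × Bool => pos w n = x ∧ ∀ k ∈ Icc (1 : ℕ) n, pos w k ≠ 0)

/-- The number of walks returning to the origin for the first time at their end. -/
def firstReturns (n : ℕ) : ℕ :=
  #(univ.filter fun w : Fin n → Fin d × Bool => pos w n = 0 ∧ ∀ k ∈ Ioo (0 : ℕ) n, pos w k ≠ 0)

/-- The number of walks that return to the origin. -/
def returned (n : ℕ) : ℕ :=
  #(univ.filter fun w : Fin n → Fin d × Bool => ∃ k ∈ Icc (1 : ℕ) n, pos w k = 0)

variable {d}

theorem pos_snoc_le {n k : ℕ} (hk : k ≤ n) (w : Fin n → Fin d × Bool) (e : Fin d × Bool) :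
    pos (Fin.snoc w e : Fin (n + 1) → Fin d × Bool) k = pos w k := by
  rw [pos, Fin.sum_univ_castSucc, if_neg (by simp; omega), add_zero, pos]
  simp

theorem pos_snoc_succ {n : ℕ} (w : Fin n → Fin d × Bool) (e : Fin d × Bool) :
    pos (Fin.snoc w e : Fin (n + 1) → Fin d × Bool) (n + 1) = pos w n + step e := by
  rw [pos, Fin.sum_univ_castSucc, pos]
  congr 1
  · refine sum_congr rfl fun i _ => ?_
    simp [show (i : ℕ) < n + 1 by omega]
  · simp

theorem card_filter_snoc {n : ℕ} {P : (Fin (n + 1) → Fin d × Bool) → Prop} [DecidablePred P] :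
    #(univ.filter P) = ∑ e, #(univ.filter fun w : Fin n → Fin d × Bool => P (Fin.snoc w e)) := by
  simp only [card_filter]
  rw [← (Fin.snocEquiv fun _ : Fin (n + 1) => Fin d × Bool).sum_comp, Fintype.sum_prod_type]
  rfl

theorem walks_zero (x : Fin d → ℤ) : walks d 0 x = if x = 0 then 1 else 0 := by
  rw [walks]
  split_ifs with h <;> simp [pos, h, eq_comm]

theorem avoids_zero (x : Fin d → ℤ) : avoids d 0 x = if x = 0 then 1 else 0 := by
  rw [avoids]
  split_ifs with h <;> simp [pos, h, eq_comm]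

theorem avoids_succ_self (n : ℕ) : avoids d (n + 1) 0 = 0 := by
  rw [avoids, card_eq_zero, filter_eq_empty_iff]
  exact fun w _ h => h.2 (n + 1) (by simp) h.1

theorem walks_succ (n : ℕ) (x : Fin d → ℤ) :
    walks d (n + 1) x = ∑ e, walks d n (x - step e) := by
  rw [walks, card_filter_snoc]
  refine sum_congr rfl fun e _ => congrArg card (filter_congr fun w _ => ?_)
  rw [pos_snoc_succ, eq_sub_iff_add_eq]

theorem avoids_succ (n : ℕ) {x : Fin d → ℤ} (hx : x ≠ 0) :
    avoids d (n + 1) x = ∑ e, avoids d n (x - step e) := by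
  rw [avoids, card_filter_snoc]
  refine sum_congr rfl fun e _ => congrArg card (filter_congr fun w _ => ?_)
  rw [pos_snoc_succ, eq_sub_iff_add_eq]
  refine and_congr_right fun h => ⟨fun h' k hk => ?_, fun h' k hk => ?_⟩
  · rw [← pos_snoc_le (mem_Icc.1 hk).2 w e]
    exact h' k (mem_Icc.2 ⟨(mem_Icc.1 hk).1, by linarith [(mem_Icc.1 hk).2]⟩)
  · rcases (Nat.le_succ_iff.1 (mem_Icc.1 hk).2) with hle | rfl
    · rw [pos_snoc_le hle]
      exact h' k (mem_Icc.2 ⟨(mem_Icc.1 hk).1, hle⟩)
    · rw [Nat.succ_eq_add_one, pos_snoc_succ, h]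
      exact hx

theorem firstReturns_succ (n : ℕ) :
    firstReturns d (n + 1) = ∑ e, avoids d n (0 - step e) := by
  rw [firstReturns, card_filter_snoc]
  refine sum_congr rfl fun e _ => congrArg card (filter_congr fun w _ => ?_)
  rw [pos_snoc_succ, eq_sub_iff_add_eq]
  refine and_congr_right fun _ => ⟨fun h' k hk => ?_, fun h' k hk => ?_⟩
  · obtain ⟨h1, h2⟩ := mem_Icc.1 hk
    rw [← pos_snoc_le h2 w e]
    exact h' k (mem_Ioo.2 ⟨h1, Nat.lt_succ_of_le h2⟩)
  · obtain ⟨h1, h2⟩ := mem_Ioo.1 hk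
    rw [pos_snoc_le (Nat.le_of_lt_succ h2)]
    exact h' k (mem_Icc.2 ⟨h1, Nat.le_of_lt_succ h2⟩)

/-- Decomposition at the last visit of the origin. -/
theorem walks_eq_sum (n : ℕ) : ∀ x : Fin d → ℤ,
    walks d n x = ∑ k ∈ range (n + 1), walks d k 0 * avoids d (n - k) x := by
  induction n with
  | zero =>
    intro x
    simp [walks_zero, avoids_zero]
  | succ n ih =>
    intro x
    rw [sum_range_succ, Nat.sub_self, avoids_zero]
    rcases eq_or_ne x 0 with rfl | hx
    · rw [if_pos rfl, mul_one, sum_eq_zero fun k hk => ?_, zero_add]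
      rw [show n + 1 - k = n - k + 1 by have := mem_range.1 hk; omega, avoids_succ_self, mul_zero]
    · rw [if_neg hx, mul_zero, add_zero, walks_succ, sum_congr rfl fun e _ => ih (x - step e),
        sum_comm]
      refine sum_congr rfl fun k hk => ?_
      rw [show n + 1 - k = n - k + 1 by have := mem_range.1 hk; omega, avoids_succ _ hx, mul_sum]

/-- **The renewal equation.** -/
theorem walks_succ_zero (n : ℕ) : walks d (n + 1) 0 =
    ∑ k ∈ range (n + 1), walks d k 0 * firstReturns d (n - k + 1) := by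
  rw [walks_succ, sum_congr rfl fun e _ => walks_eq_sum n (0 - step e), sum_comm]
  exact sum_congr rfl fun k _ => by rw [firstReturns_succ, mul_sum]

theorem returned_succ (n : ℕ) :
    returned d (n + 1) = 2 * d * returned d n + firstReturns d (n + 1) := by
  have h : (univ.filter fun w : Fin (n + 1) → Fin d × Bool =>
      ∃ k ∈ Icc (1 : ℕ) (n + (1 : ℕ)), pos w k = 0) =
      (univ.filter fun w : Fin (n + 1) → Fin d × Bool => ∃ k ∈ Icc (1 : ℕ) n, pos w k = 0) ∪
        univ.filter fun w : Fin (n + 1) → Fin d × Bool =>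
          pos w (n + 1) = 0 ∧ ∀ k ∈ Ioo (0 : ℕ) (n + (1 : ℕ)), pos w k ≠ 0 := by
    ext w
    simp only [mem_filter, mem_union, mem_univ, true_and, mem_Icc, mem_Ioo]
    constructor
    · rintro ⟨k, ⟨hk1, hk2⟩, hk⟩
      by_cases hex : ∃ j, (1 ≤ j ∧ j ≤ n) ∧ pos w j = 0
      · exact Or.inl hex
      · have hkn : k = n + 1 := by
          by_contra hne
          exact hex ⟨k, ⟨hk1, by omega⟩, hk⟩
        exact Or.inr ⟨hkn ▸ hk, fun j hj hj0 => hex ⟨j, ⟨hj.1, by omega⟩, hj0⟩⟩
    · rintro (⟨k, ⟨hk1, hk2⟩, hk⟩ | ⟨hk, -⟩)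
      · exact ⟨k, ⟨hk1, by omega⟩, hk⟩
      · exact ⟨n + 1, ⟨by omega, le_rfl⟩, hk⟩
  rw [returned, h, card_union_of_disjoint, ← firstReturns, card_filter_snoc]
  · congr 1
    rw [sum_congr rfl fun e _ => congrArg card (filter_congr
      (q := fun w : Fin n → Fin d × Bool => ∃ k ∈ Icc (1 : ℕ) n, pos w k = 0) fun w _ => ?_)]
    · simp [returned, mul_comm, Fintype.card_prod]
    · exact exists_congr fun k => and_congr_right fun hk => by
        rw [pos_snoc_le (mem_Icc.1 hk).2]
  · rw [disjoint_filter]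
    rintro w - ⟨k, hk, hk0⟩ ⟨-, hne⟩
    obtain ⟨h1, h2⟩ := mem_Icc.1 hk
    exact hne k (mem_Ioo.2 ⟨h1, Nat.lt_succ_of_le h2⟩) hk0

theorem returned_zero : returned d 0 = 0 := by
  simp [returned]

theorem returned_le (n : ℕ) : returned d n ≤ (2 * d) ^ n := by
  refine (card_le_univ _).trans_eq ?_
  simp [Fintype.card_prod, mul_comm]

end FA.Polya
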